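/-
S55 / 46-P6-PROJ (helper79): **the component datum of (P6) from the `p`-primary output of 35 + L-d.**

`S1_67.P6Inst.LevelDatum` (helper67) / `KummerSq32.levelDatum_of_placeV` (helper32) ask for local
invariants `inv w : Br_w →+ ℚ/ℤ` and a TOTAL invariant `invC` on `H²(V, C'_S)` with the sum formula
`invC (π'_* y) = ∑_w inv w (loc_w y)` for ALL classes `y ∈ H²(V, J_S)`.  With the honest local
invariants this needs the `ℓ`-primary reciprocity law for every `ℓ`; the chain 35 + L-d only
produces the `p`-primary part.  Since the remaining binders of `LevelDatum` (`hinv_inj`, `hinv_surj`,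
`hinjC`) are `p`-TORSION statements, the `p`-primary PROJECTIONS
`inv w := inv0 w ∘ (p-part)`, `invC := (invCp ∘ (p-part)) ∘ φ_*` do the job: `hrec` becomes total by
the naturality of the `p`-part (`PrimaryExt14.primaryProj_map`).

* generic (pure algebra on helper14's `PrimaryExt14`): `invProj`, `hrec_proj`, `hinv_inj_proj`,
  `hinv_surj_proj`;
* concrete over an open `V ≤ G_ℚ`: `exists_placeV_datum`, with inputs = the binders of
  `ClassGlue14.hasFormationDatum_of_invCp` (for `invJp w := inv0 w ∘ loc_w`) and outputs = the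
  binders of `levelDatum_of_placeV`.
-/
import Fermat.Agent.S55.ClassGlue14
import Fermat.Agent.S55.GlobalMod94.OpenJS
import Fermat.Agent.S55.S1Limit41.Global

set_option autoImplicit false
set_option linter.unusedSectionVars false
set_option linter.unusedVariables false

open CategoryTheory groupCohomology ExtCitation

namespace Fermat.Agent.S55.P6Proj79

open Fermat.Agent.S55.PrimaryExt14

/-! ### generic: the `p`-primary projection of a family of local invariants -/

section Generic

variable (p : ℕ) [hp : Fact p.Prime] {X Y T : Type*} [AddCommGroup X] [AddCommGroup Y]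
  [AddCommGroup T] {W : Type*} [Fintype W] {B : W → Type*} [instB : ∀ w, AddCommGroup (B w)]
  (htX : ∀ x : X, ∃ n : ℕ, 0 < n ∧ n • x = 0) (htY : ∀ y : Y, ∃ n : ℕ, 0 < n ∧ n • y = 0)
  (htB : ∀ (w : W) (b : B w), ∃ n : ℕ, 0 < n ∧ n • b = 0)
  (φ : X →+ Y) (loc : ∀ w, X →+ B w) (inv0 : ∀ w, B w →+ T) (invCp : primary p Y →+ T)

/-- the local invariant composed with the projection onto the `p`-primary part -/
noncomputable def invProj (w : W) : B w →+ T :=
  extend p (htB w) ((inv0 w).comp (primary p (B w)).subtype)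

theorem invProj_apply (w : W) (b : B w) :
    invProj p htB inv0 w b = inv0 w (primaryProj p (htB w) b : B w) := rfl

/-- on `p`-primary elements the projected invariant is the invariant -/
theorem invProj_of_pow (w : W) {b : B w} {n : ℕ} (hb : (p ^ n) • b = 0) :
    invProj p htB inv0 w b = inv0 w b := by
  have hb' : b ∈ primary p (B w) := ⟨n, hb⟩
  rw [invProj_apply, primaryProj_of_mem p (htB w) hb']

/-- the projected invariant kills the prime-to-`p` torsion -/
theorem invProj_of_coprime (w : W) {b : B w} {m : ℕ} (hm : ¬ p ∣ m) (hmb : m • b = 0) :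
    invProj p htB inv0 w b = 0 :=
  extend_of_coprime p (htB w) _ hm hmb

/-- naturality: the projected invariant of a localisation is the invariant of the localisation of
the `p`-part -/
theorem invProj_loc (w : W) (x : X) :
    invProj p htB inv0 w (loc w x) = inv0 w (loc w (primaryProj p htX x : X)) := by
  rw [invProj_apply, primaryProj_map p htX (htB w) (loc w) x]
  rfl

include htX in
/-- **the sum formula for ALL classes**, from the sum formula on `p`-primary classes -/
theorem hrec_proj
    (hcompatp : ∀ x : primary p X, invCp (mapPrimary p φ x) = ∑ w, inv0 w (loc w (x : X))) :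
    ∀ x : X, extend p htY invCp (φ x) = ∑ w, invProj p htB inv0 w (loc w x) := by
  intro x
  rw [extend_apply, primaryProj_map p htX htY φ x, hcompatp]
  exact Finset.sum_congr rfl (fun w _ => (invProj_loc p htX htB loc inv0 w x).symm)

/-- `hinv_inj` survives the projection -/
theorem hinv_inj_proj (w : W)
    (h : ∀ b : B w, p • b = 0 → inv0 w b = 0 → b = 0) :
    ∀ b : B w, p • b = 0 → invProj p htB inv0 w b = 0 → b = 0 := by
  intro b hb h0
  have hb' : (p ^ 1) • b = 0 := by rwa [pow_one]
  rw [invProj_of_pow p htB inv0 w hb'] at h0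
  exact h b hb h0

/-- `hinv_surj` survives the projection -/
theorem hinv_surj_proj (w : W)
    (h : ∀ s : T, p • s = 0 → ∃ b : B w, p • b = 0 ∧ inv0 w b = s) :
    ∀ s : T, p • s = 0 → ∃ b : B w, p • b = 0 ∧ invProj p htB inv0 w b = s := by
  intro s hs
  obtain ⟨b, hb, hbs⟩ := h s hs
  have hb' : (p ^ 1) • b = 0 := by rwa [pow_one]
  exact ⟨b, hb, by rw [invProj_of_pow p htB inv0 w hb', hbs]⟩

end Generic

/-! ### concrete: the places of the fixed field of an open `V ≤ G_ℚ` above `S` -/

section Concrete

open Fermat.Agent.S55.Profin15 Fermat.Agent.S55.Profin15.LevelStr Fermat.Agent.S55.CD3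
open Fermat.Agent.S55.Idele73.Basic
open Fermat.Agent.S55.GlobalMod94.JS Fermat.Agent.S55.GlobalMod94.OpenJS
open Fermat.Agent.S55.ESRep20
open Fermat.Agent.S55.S1Limit41.Global Fermat.Agent.S55.S1Limit41.Transfer
open Fermat.Agent.S55.ClassLimit72 Fermat.Agent.S55.QZ33
open Fermat.Agent.S55.CS79.ClassSeq Fermat.Agent.S55.CS79.DivLimit
open Fermat.Agent.S55.ClassGlue14 (inlLin inlLin_equivariant projLin projLin_equivariant
  projLin_comp_inlLin PV CtV CtV_isSmooth shortExact_classV)

variable {p : ℕ} [hp : Fact p.Prime] (S : Finset Nat.Primes) (V : Subgroup GQ)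
  (hV : IsOpenSub (globalLevels S) V)

/-- **the component datum on the TRUE class module** (`C_S = coker (Q_Sˣ → J_S × I^S)`), in the
binder shapes `inv invC hrecC hinj` of helper32's `KummerSq32.range_loc_iff_placeV` at
`C := ClassData72.CSl S`, `φ := ClassData72.phi S`: from the honest (or twisted) local invariants
`inv0 w` on `Br_w`, the total idelic invariant `InvP` with its `J_S`-part on `p`-primary classes
(`hInv`), and the `p`-primary invariant `invCp` of the class module (`hcompat`, `hinjCp` =
conclusion of 35-GEN + 35-LIM). -/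
theorem exists_placeV_datum_class (hpS : pPrime p ∈ S)
    (inv0 : ∀ w : PlaceV S V hV, BrW S V hV w →+ QZ)
    (hinv0_inj : ∀ (w : PlaceV S V hV) (b : BrW S V hV w), p • b = 0 → inv0 w b = 0 → b = 0)
    (hinv0_surj : ∀ (w : PlaceV S V hV) (s : QZ), p • s = 0 →
      ∃ b : BrW S V hV w, p • b = 0 ∧ inv0 w b = s)
    (InvP : (levV S V hV).H2 (PV S V) →+ QZ)
    (hInv : ∀ x : primary p ((levV S V hV).H2 (JV S V)),
      InvP ((levV S V hV).H2map
        (resLin (A := JSp S) (B := prodRep (JSp S) (ISlim S)) V.subtype (inlLin S))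
        ((inlLin_equivariant S).res V.subtype) (x : (levV S V hV).H2 (JV S V))) =
        ∑ w, inv0 w (locW S V hV w (x : (levV S V hV).H2 (JV S V))))
    (invCp : primary p ((levV S V hV).H2 (CtV S V)) →+ QZ)
    (hcompat : ∀ y : primary p ((levV S V hV).H2 (PV S V)),
      invCp (mapPrimary p ((levV S V hV).H2map
        (resLin (A := prodRep (JSp S) (ISlim S)) (B := ClassData72.CSl S) V.subtype (projLin S))
        ((projLin_equivariant S).res V.subtype)).toAddMonoidHom y) =
        InvP (y : (levV S V hV).H2 (PV S V)))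
    (hinjCp : ∀ c : primary p ((levV S V hV).H2 (CtV S V)), invCp c = 0 → c = 0) :
    ∃ (inv : ∀ w : PlaceV S V hV, BrW S V hV w →+ QZ)
      (invCt : (levV S V hV).H2 (CtV S V) →+ QZ),
      (∀ (w : PlaceV S V hV) (b : BrW S V hV w) (n : ℕ), (p ^ n) • b = 0 →
        inv w b = inv0 w b) ∧
      (∀ (w : PlaceV S V hV) (b : BrW S V hV w), p • b = 0 → inv w b = 0 → b = 0) ∧
      (∀ (w : PlaceV S V hV) (s : QZ), p • s = 0 →
        ∃ b : BrW S V hV w, p • b = 0 ∧ inv w b = s) ∧
      (∀ c : primary p ((levV S V hV).H2 (CtV S V)),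
        invCt (c : (levV S V hV).H2 (CtV S V)) = invCp c) ∧
      (∀ (y : (levV S V hV).H2 (CtV S V)) (n : ℕ), (p ^ n) • y = 0 → invCt y = 0 → y = 0) ∧
      (∀ y : (levV S V hV).H2 (JV S V),
        invCt ((levV S V hV).H2map
          (resLin (A := CSp S) (B := ClassData72.CSl S) V.subtype (ClassData72.phi S) ∘ₗ
            resLin (A := JSp S) (B := CSp S) V.subtype (πCS S).hom.toLinearMap)
          ((ideleV S V (nonempty_of_mem S hpS)).equivariant_right.comp
            (shortExact_classV S V).equivariant_left) y) =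
          ∑ w, inv w (locW S V hV w y)) := by
  have htX : ∀ x : (levV S V hV).H2 (JV S V), ∃ n : ℕ, 0 < n ∧ n • x = 0 :=
    fun x => LimDesc99.H2_torsion15 _ x
  have htY : ∀ y : (levV S V hV).H2 (CtV S V), ∃ n : ℕ, 0 < n ∧ n • y = 0 :=
    fun y => LimDesc99.H2_torsion15 _ y
  have htB : ∀ (w : PlaceV S V hV) (b : BrW S V hV w), ∃ n : ℕ, 0 < n ∧ n • b = 0 :=
    fun w b => LimDesc99.H2_torsion15 _ b
  have hι := (inlLin_equivariant S).res V.subtype
  have hπ := (projLin_equivariant S).res V.subtype
  -- the sum formula on `p`-primary classes, for `J_S → J_S × I^S → C_S`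
  have hcompatp : ∀ x : primary p ((levV S V hV).H2 (JV S V)),
      invCp (mapPrimary p ((levV S V hV).H2map
        (resLin (A := prodRep (JSp S) (ISlim S)) (B := ClassData72.CSl S) V.subtype (projLin S) ∘ₗ
          resLin (A := JSp S) (B := prodRep (JSp S) (ISlim S)) V.subtype (inlLin S))
        (hι.comp hπ)).toAddMonoidHom x) =
        ∑ w, inv0 w ((locW S V hV w).toAddMonoidHom (x : (levV S V hV).H2 (JV S V))) := by
    intro x
    have h1 : mapPrimary p ((levV S V hV).H2map
        (resLin (A := prodRep (JSp S) (ISlim S)) (B := ClassData72.CSl S) V.subtype (projLin S) ∘ₗ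
          resLin (A := JSp S) (B := prodRep (JSp S) (ISlim S)) V.subtype (inlLin S))
        (hι.comp hπ)).toAddMonoidHom x =
        mapPrimary p ((levV S V hV).H2map _ hπ).toAddMonoidHom
          (mapPrimary p ((levV S V hV).H2map _ hι).toAddMonoidHom x) :=
      Subtype.ext (H2map_comp (levV S V hV) hι hπ (x : (levV S V hV).H2 (JV S V)))
    rw [h1, hcompat]
    exact hInv x
  refine ⟨fun w => invProj (B := fun w => BrW S V hV w) (instB := fun _ => inferInstance) p htB inv0 w, extend p htY invCp,
    ?_, ?_, ?_, ?_, ?_, ?_⟩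
  · exact fun w b n hb => invProj_of_pow (B := fun w => BrW S V hV w) (instB := fun _ => inferInstance) p htB inv0 w hb
  · exact fun w => hinv_inj_proj (B := fun w => BrW S V hV w) (instB := fun _ => inferInstance) p htB inv0 w (hinv0_inj w)
  · exact fun w => hinv_surj_proj (B := fun w => BrW S V hV w) (instB := fun _ => inferInstance) p htB inv0 w (hinv0_surj w)
  · exact fun c => extend_coe p htY invCp c
  · exact hinjC_extend p htY invCp hinjCp
  intro y
  have key : ∀ (f g : JV S V →ₗ[ℤ] CtV S V) (hf : IsEquivariant f) (hg : IsEquivariant g),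
      f = g → (levV S V hV).H2map f hf y = (levV S V hV).H2map g hg y := by
    intro f g hf hg hfg
    subst hfg
    rfl
  have h2 := hrec_proj (B := fun w => BrW S V hV w) (instB := fun _ => inferInstance) p htX htY htB
    ((levV S V hV).H2map
      (resLin (A := prodRep (JSp S) (ISlim S)) (B := ClassData72.CSl S) V.subtype (projLin S) ∘ₗ
        resLin (A := JSp S) (B := prodRep (JSp S) (ISlim S)) V.subtype (inlLin S))
      (hι.comp hπ)).toAddMonoidHom
    (fun w => (locW S V hV w).toAddMonoidHom) inv0 invCp hcompatp y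
  refine Eq.trans ?_ h2
  congr 1
  exact key _ _ _ _ (projLin_comp_inlLin S).symm

/-- **THE COMPONENT DATUM OF (P6) ON `C'_S = J_S/E_S`**, in the binder shapes
`inv invC hinv_inj hinv_surj hinjC hrec` of helper67's `S1_67.P6Inst.LevelDatum` / helper32's
`KummerSq32.levelDatum_of_placeV` (`V = (mk' U).ker`): same inputs as
`exists_placeV_datum_class`. -/
theorem exists_placeV_datum (hpS : pPrime p ∈ S)
    (inv0 : ∀ w : PlaceV S V hV, BrW S V hV w →+ QZ)
    (hinv0_inj : ∀ (w : PlaceV S V hV) (b : BrW S V hV w), p • b = 0 → inv0 w b = 0 → b = 0)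
    (hinv0_surj : ∀ (w : PlaceV S V hV) (s : QZ), p • s = 0 →
      ∃ b : BrW S V hV w, p • b = 0 ∧ inv0 w b = s)
    (InvP : (levV S V hV).H2 (PV S V) →+ QZ)
    (hInv : ∀ x : primary p ((levV S V hV).H2 (JV S V)),
      InvP ((levV S V hV).H2map
        (resLin (A := JSp S) (B := prodRep (JSp S) (ISlim S)) V.subtype (inlLin S))
        ((inlLin_equivariant S).res V.subtype) (x : (levV S V hV).H2 (JV S V))) =
        ∑ w, inv0 w (locW S V hV w (x : (levV S V hV).H2 (JV S V))))
    (invCp : primary p ((levV S V hV).H2 (CtV S V)) →+ QZ)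
    (hcompat : ∀ y : primary p ((levV S V hV).H2 (PV S V)),
      invCp (mapPrimary p ((levV S V hV).H2map
        (resLin (A := prodRep (JSp S) (ISlim S)) (B := ClassData72.CSl S) V.subtype (projLin S))
        ((projLin_equivariant S).res V.subtype)).toAddMonoidHom y) =
        InvP (y : (levV S V hV).H2 (PV S V)))
    (hinjCp : ∀ c : primary p ((levV S V hV).H2 (CtV S V)), invCp c = 0 → c = 0) :
    ∃ (inv : ∀ w : PlaceV S V hV, BrW S V hV w →+ QZ)
      (invC : (levV S V hV).H2 (CV S V) →+ QZ),
      (∀ (w : PlaceV S V hV) (b : BrW S V hV w) (n : ℕ), (p ^ n) • b = 0 →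
        inv w b = inv0 w b) ∧
      (∀ (w : PlaceV S V hV) (b : BrW S V hV w), p • b = 0 → inv w b = 0 → b = 0) ∧
      (∀ (w : PlaceV S V hV) (s : QZ), p • s = 0 →
        ∃ b : BrW S V hV w, p • b = 0 ∧ inv w b = s) ∧
      (∀ c : (levV S V hV).H2 (CV S V), p • c = 0 → invC c = 0 → c = 0) ∧
      (∀ y : (levV S V hV).H2 (JV S V),
        invC ((levV S V hV).H2map
          (resLin (A := JSp S) (B := CSp S) V.subtype (πCS S).hom.toLinearMap)
          (ideleV S V (nonempty_of_mem S hpS)).equivariant_right y) =
          ∑ w, inv w (locW S V hV w y)) := by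
  obtain ⟨inv, invCt, h1, h2, h3, -, h5, h6⟩ := exists_placeV_datum_class S V hV hpS inv0
    hinv0_inj hinv0_surj InvP hInv invCp hcompat hinjCp
  have hCl : IsPrimeToP p (Rep.res V.subtype (ClassData72.ClS S)) :=
    ClassData72.isPrimeToP_ClS S hpS
  refine ⟨inv, invC' (levV S V hV) (shortExact_classV S V) invCt, h1, h2, h3, ?_, ?_⟩
  · intro c hc h0
    exact hinvC_primary_of_class (levV S V hV) (shortExact_classV S V) (CtV_isSmooth S V hV) hCl
      invCt h5 c 1 (by rwa [pow_one]) h0
  · intro y
    rw [invC'_apply, ← H2map_comp (levV S V hV)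
      (ideleV S V (nonempty_of_mem S hpS)).equivariant_right
      (shortExact_classV S V).equivariant_left]
    exact h6 y

end Concrete

end Fermat.Agent.S55.P6Proj79
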