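/-
S55 / 46-P6-PROJ (helper79), part 2: the `p ^ n`-torsion twins of `P6Proj79.PlaceDatum`
(`hinv_inj`, `hinv_surj`, `hinjC` for classes killed by `p ^ n` instead of `p`): the binder shapes
of helper72's `TwistFamily72` / helper14's `ClassGlue14` / helper41's `S1Limit41.Global`.
-/
import Fermat.Agent.S55.P6Proj79.PlaceDatum

set_option autoImplicit false
set_option linter.unusedSectionVars false
set_option linter.unusedVariables false

open CategoryTheory groupCohomology ExtCitation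

namespace Fermat.Agent.S55.P6Proj79

open Fermat.Agent.S55.PrimaryExt14

section Generic

variable (p : ℕ) [hp : Fact p.Prime] {T : Type*} [AddCommGroup T] {W : Type*} [Fintype W]
  {B : W → Type*} [instB : ∀ w, AddCommGroup (B w)]
  (htB : ∀ (w : W) (b : B w), ∃ n : ℕ, 0 < n ∧ n • b = 0) (inv0 : ∀ w, B w →+ T)

/-- `hinv_inj` survives the projection (`p ^ n`-torsion form) -/
theorem hinv_inj_proj_pow (w : W)
    (h : ∀ (b : B w) (n : ℕ), (p ^ n) • b = 0 → inv0 w b = 0 → b = 0) :
    ∀ (b : B w) (n : ℕ), (p ^ n) • b = 0 → invProj p htB inv0 w b = 0 → b = 0 := by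
  intro b n hb h0
  rw [invProj_of_pow p htB inv0 w hb] at h0
  exact h b n hb h0

/-- `hinv_surj` survives the projection (`p ^ n`-torsion form) -/
theorem hinv_surj_proj_pow (w : W)
    (h : ∀ (s : T) (n : ℕ), (p ^ n) • s = 0 → ∃ b : B w, (p ^ n) • b = 0 ∧ inv0 w b = s) :
    ∀ (s : T) (n : ℕ), (p ^ n) • s = 0 →
      ∃ b : B w, (p ^ n) • b = 0 ∧ invProj p htB inv0 w b = s := by
  intro s n hs
  obtain ⟨b, hb, hbs⟩ := h s n hs
  exact ⟨b, hb, by rw [invProj_of_pow p htB inv0 w hb, hbs]⟩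

end Generic

section Concrete

open Fermat.Agent.S55.Profin15 Fermat.Agent.S55.Profin15.LevelStr Fermat.Agent.S55.CD3
open Fermat.Agent.S55.Idele73.Basic
open Fermat.Agent.S55.GlobalMod94.JS Fermat.Agent.S55.GlobalMod94.OpenJS
open Fermat.Agent.S55.ESRep20
open Fermat.Agent.S55.S1Limit41.Global Fermat.Agent.S55.S1Limit41.Transfer
open Fermat.Agent.S55.ClassLimit72 Fermat.Agent.S55.QZ33
open Fermat.Agent.S55.CS79.ClassSeq Fermat.Agent.S55.CS79.DivLimit
open Fermat.Agent.S55.ClassGlue14 (inlLin inlLin_equivariant projLin projLin_equivariant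
  projLin_comp_inlLin PV CtV CtV_isSmooth shortExact_classV)

variable {p : ℕ} [hp : Fact p.Prime] (S : Finset Nat.Primes) (V : Subgroup GQ)
  (hV : IsOpenSub (globalLevels S) V)

/-- **the component datum of (P6) on `C'_S = J_S/E_S`, `p ^ n`-torsion forms.** -/
theorem exists_placeV_datum_pow (hpS : pPrime p ∈ S)
    (inv0 : ∀ w : PlaceV S V hV, BrW S V hV w →+ QZ)
    (hinv0_inj : ∀ (w : PlaceV S V hV) (b : BrW S V hV w) (n : ℕ), (p ^ n) • b = 0 →
      inv0 w b = 0 → b = 0)
    (hinv0_surj : ∀ (w : PlaceV S V hV) (s : QZ) (n : ℕ), (p ^ n) • s = 0 →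
      ∃ b : BrW S V hV w, (p ^ n) • b = 0 ∧ inv0 w b = s)
    (InvP : (levV S V hV).H2 (PV S V) →+ QZ)
    (hInv : ∀ x : primary p ((levV S V hV).H2 (JV S V)),
      InvP ((levV S V hV).H2map
        (resLin (A := JSp S) (B := prodRep (JSp S) (ISlim S)) V.subtype (inlLin S))
        ((inlLin_equivariant S).res V.subtype) (x : (levV S V hV).H2 (JV S V))) =
        ∑ w, inv0 w (locW S V hV w (x : (levV S V hV).H2 (JV S V))))
    (invCp : primary p ((levV S V hV).H2 (CtV S V)) →+ QZ)
    (hcompat : ∀ y : primary p ((levV S V hV).H2 (PV S V)),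
      invCp (mapPrimary p ((levV S V hV).H2map
        (resLin (A := prodRep (JSp S) (ISlim S)) (B := ClassData72.CSl S) V.subtype (projLin S))
        ((projLin_equivariant S).res V.subtype)).toAddMonoidHom y) =
        InvP (y : (levV S V hV).H2 (PV S V)))
    (hinjCp : ∀ c : primary p ((levV S V hV).H2 (CtV S V)), invCp c = 0 → c = 0) :
    ∃ (inv : ∀ w : PlaceV S V hV, BrW S V hV w →+ QZ)
      (invC : (levV S V hV).H2 (CV S V) →+ QZ),
      (∀ (w : PlaceV S V hV) (b : BrW S V hV w) (n : ℕ), (p ^ n) • b = 0 →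
        inv w b = inv0 w b) ∧
      (∀ (w : PlaceV S V hV) (b : BrW S V hV w) (n : ℕ), (p ^ n) • b = 0 →
        inv w b = 0 → b = 0) ∧
      (∀ (w : PlaceV S V hV) (s : QZ) (n : ℕ), (p ^ n) • s = 0 →
        ∃ b : BrW S V hV w, (p ^ n) • b = 0 ∧ inv w b = s) ∧
      (∀ (c : (levV S V hV).H2 (CV S V)) (n : ℕ), (p ^ n) • c = 0 → invC c = 0 → c = 0) ∧
      (∀ y : (levV S V hV).H2 (JV S V),
        invC ((levV S V hV).H2map
          (resLin (A := JSp S) (B := CSp S) V.subtype (πCS S).hom.toLinearMap)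
          (ideleV S V (nonempty_of_mem S hpS)).equivariant_right y) =
          ∑ w, inv w (locW S V hV w y)) := by
  have h1inj : ∀ (w : PlaceV S V hV) (b : BrW S V hV w), p • b = 0 → inv0 w b = 0 → b = 0 :=
    fun w b hb h0 => hinv0_inj w b 1 (by rwa [pow_one]) h0
  have h1surj : ∀ (w : PlaceV S V hV) (s : QZ), p • s = 0 →
      ∃ b : BrW S V hV w, p • b = 0 ∧ inv0 w b = s := by
    intro w s hs
    obtain ⟨b, hb, hbs⟩ := hinv0_surj w s 1 (by rwa [pow_one])
    exact ⟨b, by rwa [pow_one] at hb, hbs⟩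
  obtain ⟨inv, invCt, h1, -, -, -, h5, h6⟩ := exists_placeV_datum_class S V hV hpS inv0
    h1inj h1surj InvP hInv invCp hcompat hinjCp
  have hCl : IsPrimeToP p (Rep.res V.subtype (ClassData72.ClS S)) :=
    ClassData72.isPrimeToP_ClS S hpS
  refine ⟨inv, invC' (levV S V hV) (shortExact_classV S V) invCt, h1, ?_, ?_, ?_, ?_⟩
  · intro w b n hb h0
    rw [h1 w b n hb] at h0
    exact hinv0_inj w b n hb h0
  · intro w s n hs
    obtain ⟨b, hb, hbs⟩ := hinv0_surj w s n hs
    exact ⟨b, hb, by rw [h1 w b n hb, hbs]⟩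
  · intro c n hc h0
    exact hinvC_primary_of_class (levV S V hV) (shortExact_classV S V) (CtV_isSmooth S V hV) hCl
      invCt h5 c n hc h0
  · intro y
    rw [invC'_apply, ← H2map_comp (levV S V hV)
      (ideleV S V (nonempty_of_mem S hpS)).equivariant_right
      (shortExact_classV S V).equivariant_left]
    exact h6 y

end Concrete

end Fermat.Agent.S55.P6Proj79
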